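import Fermat.Agent.S41.Glue
import Fermat.Agent.S41.H281.HK
import Fermat.Agent.S41.H585.PDMain
import Fermat.Agent.S41.H744.IharaEigen
import Fermat.Agent.S41.H45.NEKummer
import Fermat.Agent.S41.H341.Occ
import Fermat.Agent.S41.H401.DS
import Fermat.Agent.S41.H881.New

/-!
# S41 — level raising, from CORE alone (row-lead helper41)

`s41_of_core : Spec.RibetCoreStatement → (exact statement of S41)`: every block of the row except
CORE is discharged here by the landed proofs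
(HK `H281.hkStatement`, PD `H585.pdHecke`, LIFT `H585.lift`, FREE `H585.cuspFree`,
IH `H744.iharaEigen_of_neKummer H45.neKummer_h45`, OCC `H341.occ`, DS `H401.ds`,
NEW `H881.newBlock`) and glued by `s41_of_blocks`.
-/

set_option autoImplicit false

open WeierstrassCurve WeierstrassCurve.Affine WeierstrassCurve.Affine.Point
open scoped CongruenceSubgroup

namespace Fermat.Agent.S41

/-- The Ihara block, unconditional. -/
theorem iharaEigen_main : Spec.IharaEigenStatement :=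
  H744.iharaEigen_of_neKummer H45.neKummer_h45

/-- S41 from the block CORE alone. -/
theorem s41_of_core (hCore : Spec.RibetCoreStatement)
    (E : WeierstrassCurve ℚ) [E.IsElliptic] {W : WeierstrassCurve ℤ} (hW : W.IsIntegralModelOf E)
    {p N q' : ℕ} (hp : p.Prime) (hp2 : p ≠ 2) (hN : 0 < N) (hq' : q'.Prime) (hq'N : ¬ q' ∣ N) (hq'p : q' ≠ p)
    (hirr : GaloisRepIsIrreducible (K := AlgebraicClosure ℚ) ℚ E p)
    (f : CuspForm (CongruenceSubgroup.Gamma0 N) 2) (𝔪 : Ideal (integralClosure ℤ ℂ))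
    (hf : f.IsNormalizedEigenform) (hmax : 𝔪.IsMaximal) (hpm : (p : integralClosure ℤ ℂ) ∈ 𝔪)
    (hcong : ∀ ℓ : ℕ, ℓ.Prime → W.IsGoodPrimeFor ℓ → ¬ ℓ ∣ N → ℓ ≠ p →
      ∃ a : integralClosure ℤ ℂ, (a : ℂ) = ModularFormClass.qCoeff f ℓ ∧
        a - ((W.apOfModel ℓ : ℤ) : integralClosure ℤ ℂ) ∈ 𝔪)
    (hLR : ∃ a : integralClosure ℤ ℂ, (a : ℂ) = ModularFormClass.qCoeff f q' ∧
      a ^ 2 - ((q' : integralClosure ℤ ℂ) + 1) ^ 2 ∈ 𝔪) :
    ∃ (g : CuspForm (CongruenceSubgroup.Gamma0 (N * q')) 2) (𝔪' : Ideal (integralClosure ℤ ℂ)),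
      g.IsNormalizedEigenform ∧ 𝔪'.IsMaximal ∧ (p : integralClosure ℤ ℂ) ∈ 𝔪' ∧
      (∀ ℓ : ℕ, ℓ.Prime → W.IsGoodPrimeFor ℓ → ¬ ℓ ∣ N * q' → ℓ ≠ p →
        ∃ a : integralClosure ℤ ℂ, (a : ℂ) = ModularFormClass.qCoeff g ℓ ∧
          a - ((W.apOfModel ℓ : ℤ) : integralClosure ℤ ℂ) ∈ 𝔪') ∧
      g.IsNewAt q' :=
  have hk := H281.hkStatement.{0}
  s41_of_blocks hk.1 hk.2.1 hk.2.2.1 hk.2.2.2.1 hk.2.2.2.2.1 hk.2.2.2.2.2.1 hk.2.2.2.2.2.2.1
    hk.2.2.2.2.2.2.2.1 hk.2.2.2.2.2.2.2.2 H585.pdHecke.{0} H585.lift H585.cuspFree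
    iharaEigen_main H341.occ hCore H401.ds H881.newBlock
    E hW hp hp2 hN hq' hq'N hq'p hirr f 𝔪 hf hmax hpm hcong hLR

end Fermat.Agent.S41
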