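import Mathlib
import Fermat.Prelude.Def_FLTPrelim_ModularRep
import Fermat.Prelude.Def_FreyPackage_LevelRaising
import Fermat.Agent.S41.Spec.HK
import Fermat.Agent.S41.Spec.PD
import Fermat.Agent.S41.Spec.Occ
import Fermat.Agent.S41.Spec.DS
import Fermat.Agent.S41.Spec.New
import Fermat.Agent.S41.Spec.Core
import Fermat.Agent.S41.H41.GlueBasic
import Fermat.Agent.S41.H41.GlueCore

/-!
# S41 — GLUE (helper41): level raising from the block statements

`s41_of_blocks`: the statement of S41 from the 17 block statements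
(HK ×9, `PDHeckeStatement`, `LiftStatement`, `CuspFreeStatement`, `IharaEigenStatement`,
`OccStatement`, `RibetCoreStatement`, `DSStatement`, `NewStatement`).
-/

set_option autoImplicit false

open WeierstrassCurve WeierstrassCurve.Affine WeierstrassCurve.Affine.Point
open scoped CongruenceSubgroup MatrixGroups

namespace Fermat.Agent.S41

open CongruenceSubgroup Fermat.Agent.S29.H642 Fermat.Agent.S41.Spec Fermat.Agent.S41.H41
open ModularCurve.Period

section LinC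

variable {N q : ℕ}

theorem t₁_smul_complex (hFun : FunctorialityStatement.{0}) (c : ℂ)
    (ψ : Additive (Gamma0 (N * q)) →+ ℂ) : t₁ N q (c • ψ) = c • t₁ N q ψ := by
  have h := t₁_comp hFun (AddMonoidHom.mulLeft c) ψ
  have e1 : (AddMonoidHom.mulLeft c).comp ψ = c • ψ := by ext γ; simp
  have e2 : (AddMonoidHom.mulLeft c).comp (t₁ N q ψ) = c • t₁ N q ψ := by ext γ; simp
  rw [e1, e2] at h
  exact h

theorem t₂_smul_complex (hFun : FunctorialityStatement.{0}) (c : ℂ)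
    (ψ : Additive (Gamma0 (N * q)) →+ ℂ) : t₂ N q (c • ψ) = c • t₂ N q ψ := by
  have h := t₂_comp hFun (AddMonoidHom.mulLeft c) ψ
  have e1 : (AddMonoidHom.mulLeft c).comp ψ = c • ψ := by ext γ; simp
  have e2 : (AddMonoidHom.mulLeft c).comp (t₂ N q ψ) = c • t₂ N q ψ := by ext γ; simp
  rw [e1, e2] at h
  exact h

/-- `t₁` as a `ℂ`-linear map. -/
noncomputable def t₁LinC (hFun : FunctorialityStatement.{0}) :
    (Additive (Gamma0 (N * q)) →+ ℂ) →ₗ[ℂ] (Additive (Gamma0 N) →+ ℂ) where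
  toFun := t₁ N q
  map_add' ψ ψ' := map_add (t₁Add hFun ℂ) ψ ψ'
  map_smul' c ψ := t₁_smul_complex hFun c ψ

/-- `t₂` as a `ℂ`-linear map. -/
noncomputable def t₂LinC (hFun : FunctorialityStatement.{0}) :
    (Additive (Gamma0 (N * q)) →+ ℂ) →ₗ[ℂ] (Additive (Gamma0 N) →+ ℂ) where
  toFun := t₂ N q
  map_add' ψ ψ' := map_add (t₂Add hFun ℂ) ψ ψ'
  map_smul' c ψ := t₂_smul_complex hFun c ψ

/-- Extension of scalars as an additive map. -/
def toCAdd (n : ℕ) : (Additive (Gamma0 n) →+ ℤ) →+ (Additive (Gamma0 n) →+ ℂ) :=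
  AddMonoidHom.mk' toC toC_add

@[simp] theorem toCAdd_apply {n : ℕ} (φ : Additive (Gamma0 n) →+ ℤ) : toCAdd n φ = toC φ := rfl

/-- The `q`-new integral classes (as a `ℤ`-submodule of all integral classes). -/
noncomputable def newSub (hFun : FunctorialityStatement.{0}) (N q : ℕ) :
    Submodule ℤ (Additive (Gamma0 (N * q)) →+ ℤ) :=
  cuspidalSubmodule ℤ (N * q) ℤ ⊓ LinearMap.ker (t₁Add (N := N) (q := q) hFun ℤ).toIntLinearMap ⊓
    LinearMap.ker (t₂Add (N := N) (q := q) hFun ℤ).toIntLinearMap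

theorem mem_newSub (hFun : FunctorialityStatement.{0}) {y : Additive (Gamma0 (N * q)) →+ ℤ} :
    y ∈ newSub hFun N q ↔ IsCuspidal y ∧ t₁ N q y = 0 ∧ t₂ N q y = 0 := by
  simp only [newSub, Submodule.mem_inf, mem_cuspidalSubmodule, LinearMap.mem_ker,
    AddMonoidHom.coe_toIntLinearMap, t₁Add_apply, t₂Add_apply, and_assoc]

/-- The `q`-new integral classes, inside the complex classes. -/
noncomputable def newLattice (hFun : FunctorialityStatement.{0}) (N q : ℕ) :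
    AddSubgroup (Additive (Gamma0 (N * q)) →+ ℂ) :=
  (newSub hFun N q).toAddSubgroup.map (toCAdd (N * q))

theorem mem_newLattice (hFun : FunctorialityStatement.{0})
    {v : Additive (Gamma0 (N * q)) →+ ℂ} :
    v ∈ newLattice hFun N q ↔
      ∃ y : Additive (Gamma0 (N * q)) →+ ℤ,
        (IsCuspidal y ∧ t₁ N q y = 0 ∧ t₂ N q y = 0) ∧ toC y = v := by
  simp only [newLattice, AddSubgroup.mem_map, Submodule.mem_toAddSubgroup, mem_newSub,
    toCAdd_apply]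

theorem newLattice_fg (hFun : FunctorialityStatement.{0}) (hFree : CuspFreeStatement)
    (hNq : N * q ≠ 0) : (newLattice hFun N q).FG := by
  obtain ⟨hfin, -⟩ := hFree (N * q) hNq
  have hnoeth : IsNoetherian ℤ (cuspidalSubmodule ℤ (N * q) ℤ) :=
    isNoetherian_of_isNoetherianRing_of_finite ℤ _
  have hfg : (newSub hFun N q).FG :=
    isNoetherian_submodule.mp hnoeth _ (inf_le_left.trans inf_le_left)
  have hfg' : (newSub hFun N q).toAddSubgroup.FG :=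
    (Submodule.fg_iff_addSubgroup_fg _).mp hfg
  obtain ⟨S, hS⟩ := hfg'
  classical
  refine ⟨S.image (toCAdd (N * q)), ?_⟩
  rw [Finset.coe_image, ← AddMonoidHom.map_closure, hS]
  rfl

end LinC

/-- **S41 from the block statements.** -/
theorem s41_of_blocks
    (hFun : FunctorialityStatement.{0}) (hRC : RestrictCuspStatement.{0})
    (hTC : TransferCuspStatement.{0}) (hHC : HeckeCuspStatement.{0})
    (hHR : HeckeRestrictStatement.{0}) (hHT : HeckeTransferStatement.{0})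
    (hTR : TransferRestrictStatement.{0}) (hTRH : TransferRestrictHeckeStatement.{0})
    (hComm : HeckeCommStatement.{0}) (hPD : PDHeckeStatement.{0}) (hLift : LiftStatement)
    (hFree : CuspFreeStatement) (hIH : IharaEigenStatement) (hOcc : OccStatement)
    (hCore : RibetCoreStatement) (hDS : DSStatement) (hNew : NewStatement)
    (E : WeierstrassCurve ℚ) [E.IsElliptic] {W : WeierstrassCurve ℤ} (hW : W.IsIntegralModelOf E)
    {p N q' : ℕ} (hp : p.Prime) (hp2 : p ≠ 2) (hN : 0 < N) (hq' : q'.Prime) (hq'N : ¬ q' ∣ N)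
    (hq'p : q' ≠ p)
    (hirr : GaloisRepIsIrreducible (K := AlgebraicClosure ℚ) ℚ E p)
    (f : CuspForm (CongruenceSubgroup.Gamma0 N) 2) (𝔪 : Ideal (integralClosure ℤ ℂ))
    (hf : f.IsNormalizedEigenform) (hmax : 𝔪.IsMaximal) (hpm : (p : integralClosure ℤ ℂ) ∈ 𝔪)
    (hcong : ∀ ℓ : ℕ, ℓ.Prime → W.IsGoodPrimeFor ℓ → ¬ ℓ ∣ N → ℓ ≠ p →
      ∃ a : integralClosure ℤ ℂ, (a : ℂ) = ModularFormClass.qCoeff f ℓ ∧
        a - ((W.apOfModel ℓ : ℤ) : integralClosure ℤ ℂ) ∈ 𝔪)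
    (hLR : ∃ a : integralClosure ℤ ℂ, (a : ℂ) = ModularFormClass.qCoeff f q' ∧
      a ^ 2 - ((q' : integralClosure ℤ ℂ) + 1) ^ 2 ∈ 𝔪) :
    ∃ (g : CuspForm (CongruenceSubgroup.Gamma0 (N * q')) 2) (𝔪' : Ideal (integralClosure ℤ ℂ)),
      g.IsNormalizedEigenform ∧ 𝔪'.IsMaximal ∧ (p : integralClosure ℤ ℂ) ∈ 𝔪' ∧
      (∀ ℓ : ℕ, ℓ.Prime → W.IsGoodPrimeFor ℓ → ¬ ℓ ∣ N * q' → ℓ ≠ p →
        ∃ a : integralClosure ℤ ℂ, (a : ℂ) = ModularFormClass.qCoeff g ℓ ∧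
          a - ((W.apOfModel ℓ : ℤ) : integralClosure ℤ ℂ) ∈ 𝔪') ∧
      g.IsNewAt q' := by
  classical
  have hN0 : N ≠ 0 := hN.ne'
  have hNq0 : N * q' ≠ 0 := Nat.mul_ne_zero hN0 hq'.ne_zero
  have hp0 : p ≠ 0 := hp.ne_zero
  -- Step 1: the q-new integral eigenclass mod p
  obtain ⟨y, hyc, hy1, hy2, hy3, hy4⟩ := exists_new_class hFun hRC hTC hHC hHR hHT hTR hTRH hComm
    hPD hLift hFree hIH hOcc hCore E hW hp hp2 hN hq' hq'N hq'p hirr f 𝔪 hf hmax hpm hcong hLR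
  -- Step 2: Deligne–Serre lifting
  have hFact : ∀ l : GoodIdx W N q' p, Fact l.1.Prime := fun l => ⟨l.2.1⟩
  have hlNq : ∀ l : GoodIdx W N q' p, ¬ l.1 ∣ N * q' := fun l => l.2.2.1
  let T : GoodIdx W N q' p → Module.End ℂ (Additive (Gamma0 (N * q')) →+ ℂ) :=
    fun l => heckeLinC (hlNq l)
  have hTK : ∀ i, ∀ x ∈ newLattice hFun N q', T i x ∈ newLattice hFun N q' := by
    intro i x hx
    obtain ⟨y', ⟨hc, h1, h2⟩, rfl⟩ := (mem_newLattice hFun).mp hx
    refine (mem_newLattice hFun).mpr ⟨heckeTransfer (hlNq i) y', ⟨?_, ?_, ?_⟩, ?_⟩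
    · exact hHC (N * q') i.1 (hlNq i) ℤ y' hc
    · have := (hHT N q' i.1 (not_dvd_left_of_not_dvd_mul (hlNq i)) (hlNq i) hNq0 ℤ y').1
      rw [← this, h1, heckeTransfer_zero]
    · have := (hHT N q' i.1 (not_dvd_left_of_not_dvd_mul (hlNq i)) (hlNq i) hNq0 ℤ y').2
      rw [← this, h2, heckeTransfer_zero]
    · exact (heckeTransfer_toC (hlNq i) y').symm
  have hTcomm : ∀ i j, ∀ x ∈ newLattice hFun N q', T i (T j x) = T j (T i x) := by
    intro i j x _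
    exact hComm (N * q') i.1 j.1 (hlNq i) (hlNq j) ℂ x
  have hyK : toC y ∈ newLattice hFun N q' := (mem_newLattice hFun).mpr ⟨y, ⟨hyc, hy1, hy2⟩, rfl⟩
  have hyp : ∀ z ∈ newLattice hFun N q', toC y ≠ p • z := by
    intro z hz h
    obtain ⟨z', -, rfl⟩ := (mem_newLattice hFun).mp hz
    apply hy3
    refine ⟨z', toC_injective ?_⟩
    rw [h, toC_zsmul, natCast_zsmul]
  have hyeig : ∀ i ∈ (Set.univ : Set (GoodIdx W N q' p)), ∃ z ∈ newLattice hFun N q',
      T i (toC y) - (W.apOfModel i.1) • toC y = p • z := by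
    intro i _
    obtain ⟨z, hzc, hz⟩ := hy4 i.1 (hlNq i) i.2.2.2.1 i.2.2.2.2
    have hlN : ¬ i.1 ∣ N := not_dvd_left_of_not_dvd_mul (hlNq i)
    refine ⟨toC z, (mem_newLattice hFun).mpr ⟨z, ⟨hzc, ?_, ?_⟩, rfl⟩, ?_⟩
    · apply smul_left_injective_int hp0
      rw [← t₁_zsmul hFun, ← hz, t₁_sub hFun, t₁_zsmul hFun, hy1, smul_zero, sub_zero,
        ← (hHT N q' i.1 hlN (hlNq i) hNq0 ℤ y).1, hy1, heckeTransfer_zero, smul_zero]
    · apply smul_left_injective_int hp0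
      rw [← t₂_zsmul hFun, ← hz, t₂_sub hFun, t₂_zsmul hFun, hy2, smul_zero, sub_zero,
        ← (hHT N q' i.1 hlN (hlNq i) hNq0 ℤ y).2, hy2, heckeTransfer_zero, smul_zero]
    · show heckeTransfer (hlNq i) (toC y) - (W.apOfModel i.1) • toC y = p • toC z
      rw [heckeTransfer_toC, ← toC_zsmul, ← natCast_zsmul, ← toC_zsmul, ← hz]
      refine AddMonoidHom.ext fun γ => ?_
      simp
  obtain ⟨v, b, 𝔪', hv0, hvspan, hveig, hmax', hpm', hcong'⟩ :=
    hDS (GoodIdx W N q' p) (Additive (Gamma0 (N * q')) →+ ℂ) T (newLattice hFun N q')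
      (newLattice_fg hFun hFree hNq0) hTK hTcomm p Set.univ (fun i => W.apOfModel i.1) (toC y)
      hyK hyp hyeig
  -- Step 3: the newform
  have hKpar : ((newLattice hFun N q' : AddSubgroup _) : Set (Additive (Gamma0 (N * q')) →+ ℂ)) ⊆
      (parabolicHoms ℂ (Gamma0 (N * q')) ℂ : Set _) := by
    intro x hx
    obtain ⟨y', ⟨hc, -, -⟩, rfl⟩ := (mem_newLattice hFun).mp hx
    exact (isCuspidal_toC hc).1
  have hKt1 : ((newLattice hFun N q' : AddSubgroup _) : Set (Additive (Gamma0 (N * q')) →+ ℂ)) ⊆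
      (LinearMap.ker (t₁LinC (N := N) (q := q') hFun) : Set _) := by
    intro x hx
    obtain ⟨y', ⟨-, h1, -⟩, rfl⟩ := (mem_newLattice hFun).mp hx
    show t₁ N q' (toC y') = 0
    rw [show toC y' = (Int.castAddHom ℂ).comp y' from rfl, t₁_comp hFun, h1]
    exact AddMonoidHom.comp_zero _
  have hKt2 : ((newLattice hFun N q' : AddSubgroup _) : Set (Additive (Gamma0 (N * q')) →+ ℂ)) ⊆
      (LinearMap.ker (t₂LinC (N := N) (q := q') hFun) : Set _) := by
    intro x hx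
    obtain ⟨y', ⟨-, -, h2⟩, rfl⟩ := (mem_newLattice hFun).mp hx
    show t₂ N q' (toC y') = 0
    rw [show toC y' = (Int.castAddHom ℂ).comp y' from rfl, t₂_comp hFun, h2]
    exact AddMonoidHom.comp_zero _
  have hvpar : v ∈ parabolicHoms ℂ (Gamma0 (N * q')) ℂ := Submodule.span_le.mpr hKpar hvspan
  have hvt1 : t₁ N q' v = 0 := Submodule.span_le.mpr hKt1 hvspan
  have hvt2 : t₂ N q' v = 0 := Submodule.span_le.mpr hKt2 hvspan
  let P : ℕ → Prop := fun l => W.IsGoodPrimeFor l ∧ l ≠ p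
  let b' : ℕ → ℂ := fun l =>
    if h : l.Prime ∧ ¬ l ∣ N * q' ∧ W.IsGoodPrimeFor l ∧ l ≠ p then ((b ⟨l, h⟩ : integralClosure ℤ ℂ) : ℂ)
    else 0
  have hb' : ∀ (l : ℕ) (h : l.Prime ∧ ¬ l ∣ N * q' ∧ W.IsGoodPrimeFor l ∧ l ≠ p),
      b' l = ((b ⟨l, h⟩ : integralClosure ℤ ℂ) : ℂ) := fun l h => dif_pos h
  obtain ⟨g, hg, hgb, hgnew⟩ := hNew N q' hN0 hq' hq'N P b' v hvpar hv0 (by
    intro l inst hl hP
    rw [hb' l ⟨inst.out, hl, hP.1, hP.2⟩]
    exact hveig ⟨l, inst.out, hl, hP.1, hP.2⟩) hvt1 hvt2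
  refine ⟨g, 𝔪', hg, hmax', hpm', ?_, hgnew⟩
  intro ℓ hℓ hgood hℓNq hℓp
  refine ⟨b ⟨ℓ, hℓ, hℓNq, hgood, hℓp⟩, ?_, hcong' _ (Set.mem_univ _)⟩
  rw [hgb ℓ hℓ hℓNq ⟨hgood, hℓp⟩, hb' ℓ ⟨hℓ, hℓNq, hgood, hℓp⟩]

end Fermat.Agent.S41
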